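import Fermat.Agent.S59.H566.PeuUnit
import Fermat.Agent.S59.H649.StrictSpec
import Fermat.Agent.S19.Spec
import Fermat.Agent.A2.IF.H9.InertiaClosed

/-!
# Row S59, cell TW, leaf TW-STRICT (b) PEU-FLAT — part 2 (helper566): local coordinates

`ρ̄ : G_ℚ → GL(V)` over a finite field `k` of characteristic `p`, cyclotomic determinant,
`P | p` a place with an ordinary line `L ⊂ V`, peu ramifié at `P`.  We construct a
`Fermat.Agent.S19.LocalCoordDatum p V act` (coordinates at the ONE place `P`, equivariant under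
the inertia group only, with `P`-polynomial addition law):

    Ψ_{(v₀, ξ)}(m) = ζ ^ ξ(m - v₀) · B(v₀, ξ)   if m ∈ v₀ + L,      0 otherwise,

`v₀ ∈ V`, `ξ : V →+ ℤ/p`, `B(v₀, ξ)` a `P`-unit with `τ B = ζ ^ ξ(τ v₀ - v₀) · B` for ALL `τ ∈ I_P`
(`PeuUnit.lean`).  The addition law is the finite sum over the cosets of `L`.
-/

set_option autoImplicit false
set_option linter.style.haveILetI false
set_option linter.unusedSectionVars false
set_option linter.unusedVariables false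

open scoped Pointwise

namespace Fermat.Agent.S59.H566

open Fermat.Agent.S59.H649 (IsOrdLineAt IsPeuAt)

/-- Additive characters with values in `ℤ/p` separate the points of a group killed by `p`. -/
theorem exists_addChar_ne_zero {V : Type*} [AddCommGroup V] (p : ℕ) [Fact p.Prime]
    (hp : ∀ v : V, p • v = 0) {w : V} (hw : w ≠ 0) : ∃ ξ : V →+ ZMod p, ξ w ≠ 0 := by
  let inst : Module (ZMod p) V := AddCommGroup.zmodModule hp
  have h1 : @Module.Free (ZMod p) V _ _ inst := @Module.Free.of_divisionRing (ZMod p) V _ _ inst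
  have h2 : @Module.Projective (ZMod p) _ V _ inst :=
    @Module.Projective.of_free (ZMod p) _ V _ inst h1
  obtain ⟨f, hf⟩ := @Module.Projective.exists_dual_ne_zero V _ (ZMod p) _ inst h2 w hw
  exact ⟨(@LinearMap.toAddMonoidHom _ _ _ _ _ _ _ _ inst _ _ f), hf⟩

section Rep

variable {p : ℕ} [Fact p.Prime] {k : Type} [Field k] (ρbar : ResidualGaloisRep k)
  (P : ValuationSubring QbP) (L : Submodule k ρbar.V)

/-- the Galois action on `V` -/
noncomputable def actR (σ : GQP) (v : ρbar.V) : ρbar.V := ρbar.ρ σ v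

lemma actR_one (v : ρbar.V) : actR ρbar 1 v = v := by
  show ρbar.ρ 1 v = v
  rw [map_one]; rfl

lemma actR_mul (σ τ : GQP) (v : ρbar.V) : actR ρbar (σ * τ) v = actR ρbar σ (actR ρbar τ v) := by
  show ρbar.ρ (σ * τ) v = ρbar.ρ σ (ρbar.ρ τ v)
  rw [map_mul]; rfl

lemma actR_add (σ : GQP) (v w : ρbar.V) :
    actR ρbar σ (v + w) = actR ρbar σ v + actR ρbar σ w :=
  map_add _ _ _

lemma actR_sub (σ : GQP) (v w : ρbar.V) :
    actR ρbar σ (v - w) = actR ρbar σ v - actR ρbar σ w :=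
  map_sub _ _ _

lemma actR_inv_apply (σ : GQP) (v : ρbar.V) : actR ρbar σ⁻¹ (actR ρbar σ v) = v := by
  rw [← actR_mul, inv_mul_cancel, actR_one]

theorem isContAddAction_actR : Fermat.Agent.S19.IsContAddAction (actR ρbar) where
  act_one := actR_one ρbar
  act_mul := actR_mul ρbar
  act_add := actR_add ρbar
  cont := fun m => by
    obtain ⟨E, hE, h⟩ := ρbar.factorsThroughFiniteLevel
    refine ⟨E, hE, fun σ hσ => ?_⟩
    show ρbar.ρ σ m = m
    rw [h σ hσ]; rfl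

/-- The hypotheses of PEU-FLAT in terms of `ρ̄` only (no `GaloisRepAdic`): characteristic `p`,
cyclotomic determinant (level one), an ordinary line `L` at `P`. -/
structure OrdLineData (p : ℕ) {k : Type} [Field k] (ρbar : ResidualGaloisRep k)
    (P : ValuationSubring QbP) (L : Submodule k ρbar.V) : Prop where
  char : ((p : ℕ) : k) = 0
  det : ∀ (σ : GQP) (a : ℕ), (∀ μ : QbP, μ ^ p = 1 → σ μ = μ ^ a) →
    LinearMap.det (ρbar.ρ σ) = (a : k)
  basis : ∃ b : Module.Basis (Fin 2) k ρbar.V, L = k ∙ b 0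
  stable : ∀ σ ∈ P.decompositionSubgroup ℚ, ∀ v ∈ L, ρbar.ρ σ v ∈ L
  inertia : ∀ σ ∈ P.inertiaSubgroupIn ℚ, ∀ v : ρbar.V, ρbar.ρ σ v - v ∈ L

variable {ρbar P L}

lemma OrdLineData.nsmul_p_eq_zero (h : OrdLineData p ρbar P L) (v : ρbar.V) : p • v = 0 := by
  rw [← Nat.cast_smul_eq_nsmul k, h.char, zero_smul]

/-- inertia acts on the ordinary line through the cyclotomic character -/
theorem OrdLineData.inertia_apply_line (h : OrdLineData p ρbar P L)
    {ζ : QbP} (hζ : IsPrimitiveRoot ζ p) {σ : GQP} (hσ : σ ∈ P.inertiaSubgroupIn ℚ)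
    {l : ρbar.V} (hl : l ∈ L) :
    actR ρbar σ l = (cycExp p ζ σ).val • l := by
  obtain ⟨b, hb⟩ := h.basis
  have hσD := mem_decomp_of_mem_inertia566 P hσ
  have hb0 : b 0 ∈ L := by rw [hb]; exact Submodule.mem_span_singleton_self _
  have h1 : ρbar.ρ σ (b 0) ∈ L := h.stable σ hσD (b 0) hb0
  have h2 : ρbar.ρ σ (b 1) - b 1 ∈ L := h.inertia σ hσ (b 1)
  rw [hb] at h1 h2
  obtain ⟨x, hx⟩ := Submodule.mem_span_singleton.1 h1
  obtain ⟨y, hy⟩ := Submodule.mem_span_singleton.1 h2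
  have hb1 : ρbar.ρ σ (b 1) = y • b 0 + b 1 := by rw [hy]; abel
  have hdet' : LinearMap.det (ρbar.ρ σ) = x := by
    rw [← LinearMap.det_toMatrix b, Matrix.det_fin_two]
    simp only [LinearMap.toMatrix_apply]
    rw [← hx, hb1]
    simp
  have hx' : x = (((cycExp p ζ σ).val : ℕ) : k) := by
    rw [← hdet']
    exact h.det σ _ (fun μ hμ => apply_root_eq_pow hζ σ hμ)
  rw [hb] at hl
  obtain ⟨t, rfl⟩ := Submodule.mem_span_singleton.1 hl
  show ρbar.ρ σ (t • b 0) = _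
  rw [map_smul, ← hx, hx', ← Nat.cast_smul_eq_nsmul k, smul_comm]

variable (ρbar) in
/-- the Kummer cocycle `σ ↦ ξ (σ v - v)` -/
noncomputable def kumC (v : ρbar.V) (ξ : ρbar.V →+ ZMod p) (σ : GQP) : ZMod p :=
  ξ (actR ρbar σ v - v)

theorem OrdLineData.kumC_mul (h : OrdLineData p ρbar P L)
    {ζ : QbP} (hζ : IsPrimitiveRoot ζ p) (v : ρbar.V) (ξ : ρbar.V →+ ZMod p)
    {σ : GQP} (hσ : σ ∈ P.inertiaSubgroupIn ℚ) {τ : GQP} (hτ : τ ∈ P.inertiaSubgroupIn ℚ) :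
    kumC ρbar v ξ (σ * τ) = kumC ρbar v ξ σ + cycExp p ζ σ * kumC ρbar v ξ τ := by
  haveI : NeZero p := neZero_p566
  unfold kumC
  have h1 : actR ρbar (σ * τ) v - v
      = actR ρbar σ (actR ρbar τ v - v) + (actR ρbar σ v - v) := by
    rw [actR_mul, actR_sub]; abel
  have h2 : actR ρbar τ v - v ∈ L := h.inertia τ hτ v
  rw [h1, map_add, h.inertia_apply_line hζ hσ h2, map_nsmul, nsmul_eq_mul,
    ZMod.natCast_zmod_val, add_comm]

end Rep

section Coord

variable {p : ℕ} [Fact p.Prime] {k : Type} [Field k] {ρbar : ResidualGaloisRep k}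
  {P : ValuationSubring QbP} {L : Submodule k ρbar.V}

/-- Kummer units for all of inertia. -/
theorem OrdLineData.exists_units (h : OrdLineData p ρbar P L) (hpeu : IsPeuAt p ρbar P)
    {ζ : QbP} (hζ : IsPrimitiveRoot ζ p) (v : ρbar.V) (ξ : ρbar.V →+ ZMod p) :
    ∃ B : QbP, P.valuation B = 1 ∧
      ∀ σ ∈ P.inertiaSubgroupIn ℚ, σ B = ζ ^ (kumC ρbar v ξ σ).val * B := by
  obtain ⟨B₁, hB₁, hK⟩ := hpeu ζ hζ ξ v
  exact exists_unit_of_kummer P hζ (kumC ρbar v ξ)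
    (fun σ hσ τ hτ => h.kumC_mul hζ v ξ hσ hτ) B₁ hB₁ (fun σ hσ hσζ => hK σ hσ hσζ)

/-- The index type of the coordinates. -/
abbrev CoordIdx (p : ℕ) {k : Type} [Field k] (ρbar : ResidualGaloisRep k) : Type :=
  ρbar.V × (ρbar.V →+ ZMod p)

open Classical in
/-- The local coordinates. -/
noncomputable def psi (L : Submodule k ρbar.V) (ζ : QbP)
    (B : ρbar.V → (ρbar.V →+ ZMod p) → QbP) (m : ρbar.V) (i : CoordIdx p ρbar) : QbP :=
  if m - i.1 ∈ L then ζ ^ (i.2 (m - i.1)).val * B i.1 i.2 else 0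

lemma psi_of_mem {ζ : QbP} {B : ρbar.V → (ρbar.V →+ ZMod p) → QbP} {m : ρbar.V}
    {i : CoordIdx p ρbar} (h : m - i.1 ∈ L) :
    psi L ζ B m i = ζ ^ (i.2 (m - i.1)).val * B i.1 i.2 := by
  unfold psi; rw [if_pos h]

lemma psi_of_not_mem {ζ : QbP} {B : ρbar.V → (ρbar.V →+ ZMod p) → QbP} {m : ρbar.V}
    {i : CoordIdx p ρbar} (h : m - i.1 ∉ L) : psi L ζ B m i = 0 := by
  unfold psi; rw [if_neg h]

section Props

variable (h : OrdLineData p ρbar P L) {ζ : QbP} (hζ : IsPrimitiveRoot ζ p)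
  {B : ρbar.V → (ρbar.V →+ ZMod p) → QbP}
  (hBv : ∀ v ξ, P.valuation (B v ξ) = 1)
  (hBσ : ∀ v ξ, ∀ σ ∈ P.inertiaSubgroupIn ℚ, σ (B v ξ) = ζ ^ (kumC ρbar v ξ σ).val * B v ξ)

include hζ hBv in
theorem psi_mem (m : ρbar.V) (i : CoordIdx p ρbar) : psi L ζ B m i ∈ P := by
  by_cases hm : m - i.1 ∈ L
  · rw [psi_of_mem hm]
    refine mul_mem ?_ ?_
    · exact (P.valuation_le_one_iff _).1 (val_pow_root566 P hζ.pow_eq_one _).le
    · exact (P.valuation_le_one_iff _).1 (hBv _ _).le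
  · rw [psi_of_not_mem hm]
    exact P.zero_mem

include h in
lemma OrdLineData.sub_mem_iff {σ : GQP} (hσ : σ ∈ P.inertiaSubgroupIn ℚ) (m v₀ : ρbar.V) :
    actR ρbar σ m - v₀ ∈ L ↔ m - v₀ ∈ L := by
  have hσD := mem_decomp_of_mem_inertia566 P hσ
  have hinv : σ⁻¹ ∈ P.decompositionSubgroup ℚ := (P.decompositionSubgroup ℚ).inv_mem hσD
  have h0 : actR ρbar σ v₀ - v₀ ∈ L := h.inertia σ hσ v₀
  have h1 : actR ρbar σ m - v₀ = actR ρbar σ (m - v₀) + (actR ρbar σ v₀ - v₀) := by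
    rw [actR_sub]; abel
  constructor
  · intro hm
    have h2 : actR ρbar σ (m - v₀) ∈ L := by
      have : actR ρbar σ (m - v₀) = (actR ρbar σ m - v₀) - (actR ρbar σ v₀ - v₀) := by
        rw [h1]; abel
      rw [this]
      exact L.sub_mem hm h0
    have h3 := h.stable σ⁻¹ hinv _ h2
    have h4 : ρbar.ρ σ⁻¹ (actR ρbar σ (m - v₀)) = m - v₀ := actR_inv_apply ρbar σ (m - v₀)
    rwa [h4] at h3
  · intro hm
    rw [h1]
    exact L.add_mem (h.stable σ hσD _ hm) h0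

include h hζ hBσ in
theorem psi_equivariant {σ : GQP} (hσ : σ ∈ P.inertiaSubgroupIn ℚ) (m : ρbar.V)
    (i : CoordIdx p ρbar) : psi L ζ B (actR ρbar σ m) i = σ (psi L ζ B m i) := by
  haveI : NeZero p := neZero_p566
  by_cases hm : m - i.1 ∈ L
  · have hm' : actR ρbar σ m - i.1 ∈ L := (h.sub_mem_iff hσ m i.1).2 hm
    rw [psi_of_mem hm, psi_of_mem hm', map_mul, apply_zpw hζ, hBσ i.1 i.2 σ hσ, ← mul_assoc,
      ← zpw_add hζ.pow_eq_one]
    congr 2
    have h1 : actR ρbar σ m - i.1 = actR ρbar σ (m - i.1) + (actR ρbar σ i.1 - i.1) := by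
      rw [actR_sub]; abel
    rw [h1, map_add, h.inertia_apply_line hζ hσ hm, map_nsmul, nsmul_eq_mul,
      ZMod.natCast_zmod_val]
    rfl
  · have hm' : actR ρbar σ m - i.1 ∉ L := fun h' => hm ((h.sub_mem_iff hσ m i.1).1 h')
    rw [psi_of_not_mem hm, psi_of_not_mem hm', map_zero]

include h hζ hBv in
theorem psi_injective : Function.Injective (psi L ζ B) := by
  intro m m' hmm
  have hB0 : ∀ v ξ, B v ξ ≠ 0 := fun v ξ => (mem_of_val_eq_one566 P (hBv v ξ)).2.2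
  have hself : ∀ ξ : ρbar.V →+ ZMod p, psi L ζ B m (m, ξ) = B m ξ := by
    intro ξ
    have h0 : m - (m, ξ).1 ∈ L := by
      show m - m ∈ L
      rw [sub_self]; exact L.zero_mem
    rw [psi_of_mem h0]
    show ζ ^ (ξ (m - m)).val * B m ξ = B m ξ
    rw [sub_self, map_zero, zpw_zero, one_mul]
  have hmem : m' - m ∈ L := by
    by_contra hn
    have h1 := congrFun hmm (m, (0 : ρbar.V →+ ZMod p))
    rw [hself, psi_of_not_mem (i := (m, (0 : ρbar.V →+ ZMod p))) hn] at h1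
    exact hB0 _ _ h1
  have hξ : ∀ ξ : ρbar.V →+ ZMod p, ξ (m' - m) = 0 := by
    intro ξ
    have h1 := congrFun hmm (m, ξ)
    rw [hself, psi_of_mem (i := (m, ξ)) hmem] at h1
    have h2 : ζ ^ (ξ (m' - m)).val = ζ ^ (0 : ZMod p).val := by
      rw [zpw_zero]
      have h3 : ζ ^ (ξ (m' - m)).val * B m ξ = 1 * B m ξ := by rw [one_mul]; exact h1.symm
      exact mul_right_cancel₀ (hB0 m ξ) h3
    exact zpw_injective hζ h2
  by_contra hne
  have hne' : m' - m ≠ 0 := fun h0 => hne (sub_eq_zero.1 h0).symm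
  obtain ⟨ξ, hξ'⟩ := exists_addChar_ne_zero p h.nsmul_p_eq_zero hne'
  exact hξ' (hξ ξ)

/-- the coefficient of the addition law -/
noncomputable def addCoeff (ζ : QbP) (B : ρbar.V → (ρbar.V →+ ZMod p) → QbP)
    (v₀ v₁ v₂ : ρbar.V) (ξ : ρbar.V →+ ZMod p) : QbP :=
  ζ ^ (ξ (v₁ + v₂ - v₀)).val * B v₀ ξ * (B v₁ ξ)⁻¹ * (B v₂ ξ)⁻¹

include hζ hBv in
lemma addCoeff_mem (v₀ v₁ v₂ : ρbar.V) (ξ : ρbar.V →+ ZMod p) :
    addCoeff ζ B v₀ v₁ v₂ ξ ∈ P := by
  unfold addCoeff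
  refine mul_mem (mul_mem (mul_mem ?_ ?_) ?_) ?_
  · exact (P.valuation_le_one_iff _).1 (val_pow_root566 P hζ.pow_eq_one _).le
  · exact (mem_of_val_eq_one566 P (hBv _ _)).1
  · exact (mem_of_val_eq_one566 P (hBv _ _)).2.1
  · exact (mem_of_val_eq_one566 P (hBv _ _)).2.1

include hζ hBv in
/-- **The addition law**, pointwise. -/
theorem psi_add [Fintype (ρbar.V ⧸ L)] (s : ρbar.V ⧸ L → ρbar.V)
    (hs : ∀ q, Submodule.Quotient.mk (s q) = q) (v₀ : ρbar.V) (ξ : ρbar.V →+ ZMod p)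
    (m m' : ρbar.V) :
    psi L ζ B (m + m') (v₀, ξ) =
      ∑ q : ρbar.V ⧸ L,
        addCoeff ζ B v₀ (s q) (s (Submodule.Quotient.mk v₀ - q)) ξ *
          (psi L ζ B m (s q, ξ) * psi L ζ B m' (s (Submodule.Quotient.mk v₀ - q), ξ)) := by
  classical
  have hB0 : ∀ v ξ, B v ξ ≠ 0 := fun v ξ => (mem_of_val_eq_one566 P (hBv v ξ)).2.2
  set π : ρbar.V → ρbar.V ⧸ L := Submodule.Quotient.mk with hπ
  have hπeq : ∀ x y : ρbar.V, π x = π y ↔ x - y ∈ L := fun x y => Submodule.Quotient.eq L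
  rw [Finset.sum_eq_single (π m)]
  · set v₁ := s (π m) with hv₁
    set v₂ := s (π v₀ - π m) with hv₂
    have hm1 : m - v₁ ∈ L := (hπeq _ _).1 (hs (π m)).symm
    rw [psi_of_mem (i := (v₁, ξ)) hm1]
    by_cases hmm : m + m' - v₀ ∈ L
    · have hm2 : m' - v₂ ∈ L := by
        rw [← hπeq, hv₂, hs]
        have h1 : π (m + m') = π v₀ := (hπeq _ _).2 hmm
        have h2 : π (m + m') = π m + π m' := rfl
        rw [h2] at h1
        rw [← h1]; abel
      rw [psi_of_mem (i := (v₀, ξ)) hmm, psi_of_mem (i := (v₂, ξ)) hm2]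
      show ζ ^ (ξ (m + m' - v₀)).val * B v₀ ξ = addCoeff ζ B v₀ v₁ v₂ ξ *
        (ζ ^ (ξ (m - v₁)).val * B v₁ ξ * (ζ ^ (ξ (m' - v₂)).val * B v₂ ξ))
      unfold addCoeff
      have e : m + m' - v₀ = (v₁ + v₂ - v₀) + (m - v₁) + (m' - v₂) := by abel
      rw [e, map_add, map_add, zpw_add hζ.pow_eq_one, zpw_add hζ.pow_eq_one]
      field_simp [hB0 v₁ ξ, hB0 v₂ ξ]
    · have hm2 : m' - v₂ ∉ L := by
        intro h2
        apply hmm
        rw [← hπeq] at h2 ⊢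
        rw [hv₂, hs] at h2
        have h3 : π (m + m') = π m + π m' := rfl
        rw [h3, h2]; abel
      rw [psi_of_not_mem (i := (v₀, ξ)) hmm, psi_of_not_mem (i := (v₂, ξ)) hm2, mul_zero,
        mul_zero]
  · intro q _ hq
    have hn : m - s q ∉ L := by
      intro h1
      apply hq
      rw [← hs q]
      exact ((hπeq _ _).2 h1).symm
    rw [psi_of_not_mem (i := (s q, ξ)) hn, zero_mul, mul_zero]
  · intro hn
    exact absurd (Finset.mem_univ _) hn

end Props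

end Coord

end Fermat.Agent.S59.H566
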