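import Fermat.Agent.S59.H566.PeuCoord
import Fermat.Agent.S19.H679.Main
import Fermat.Agent.A3.H619.OrdStatement
import Fermat.Agent.S19.H435.FlatGlue

/-!
# Row S59, cell TW, leaf TW-STRICT (b) PEU-FLAT — part 3 (helper566): `PeuFlatStatement`

    theorem peuFlat : Fermat.Agent.S59.H649.PeuFlatStatement

(a residual representation over a finite field of odd characteristic `p` with cyclotomic
determinant which at ONE place `P | p` has an ordinary line and is peu ramifié, is flat at `p`).

Chain:  local coordinates at `P` (`PeuCoord.lean`: `psi`, inertia-equivariant, `P`-polynomial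
addition law)  ⟹  `S19.LocalCoordDatum`  ⟹ (`S19.H679.unrStatementH679`, unramified descent)
`S19.CoordDatum`  ⟹  `S19.OrderDatum`  ⟹ (`A3.H619.ord`)  `S19.HopfModel`  ⟹
(`S19.H435.isFlatAt_of_subquotients`)  `IsFlatAt`.

The hypothesis `p ≠ 2` is not used.
-/

set_option autoImplicit false
set_option linter.style.haveILetI false
set_option linter.unusedSectionVars false
set_option linter.unusedVariables false

open scoped Pointwise

namespace Fermat.Agent.S59.H566

open Fermat.Agent.S59.H649 (IsOrdLineAt IsPeuAt PeuFlatStatement)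

section

variable {p : ℕ} [Fact p.Prime] {k : Type} [Field k] [Finite k] {ρbar : ResidualGaloisRep k}
  {P : ValuationSubring QbP} {L : Submodule k ρbar.V}

lemma finite_V566 (ρbar : ResidualGaloisRep k) : Finite ρbar.V :=
  Module.finite_iff_finite.mp (inferInstance : Module.Finite k ρbar.V)

lemma exists_primitiveRoot566 (p : ℕ) [Fact p.Prime] : ∃ ζ : QbP, IsPrimitiveRoot ζ p := by
  haveI : NeZero p := neZero_p566
  haveI : NeZero ((p : ℕ) : QbP) := ⟨Nat.cast_ne_zero.2 (Fact.out : p.Prime).ne_zero⟩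
  exact HasEnoughRootsOfUnity.prim

/-- **The local coordinate datum** of an ordinary peu ramifié representation. -/
theorem exists_localCoordDatum (h : OrdLineData p ρbar P L) (hP : P.LiesOverPrime p)
    (hpeu : IsPeuAt p ρbar P) :
    Nonempty (Fermat.Agent.S19.LocalCoordDatum p ρbar.V (actR ρbar)) := by
  classical
  obtain ⟨ζ, hζ⟩ := exists_primitiveRoot566 p
  choose B hBv hBσ using fun v ξ => h.exists_units hpeu hζ v ξ
  haveI : Finite ρbar.V := finite_V566 ρbar
  haveI : Finite (ρbar.V →+ ZMod p) :=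
    Finite.of_injective (fun f => (f : ρbar.V → ZMod p)) DFunLike.coe_injective
  haveI : Finite (ρbar.V ⧸ L) :=
    Finite.of_surjective _ (Submodule.Quotient.mk_surjective L)
  haveI : Fintype (ρbar.V ⧸ L) := Fintype.ofFinite _
  haveI : Algebra.IsAlgebraic ℚ QbP := AlgebraicClosure.isAlgebraic ℚ
  let s : ρbar.V ⧸ L → ρbar.V := Function.surjInv (Submodule.Quotient.mk_surjective L)
  have hs : ∀ q, Submodule.Quotient.mk (s q) = q :=
    Function.surjInv_eq (Submodule.Quotient.mk_surjective L)
  refine ⟨{ V := P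
            ell_mem := hP
            ι := CoordIdx p ρbar
            fin := inferInstance
            Ψ := psi L ζ B
            inj := psi_injective h hζ hBv
            integral := psi_mem hζ hBv
            equivariant := ?_
            add_mem := ?_ }⟩
  · intro σ hσ m i
    have hσI : σ ∈ P.inertiaSubgroupIn ℚ :=
      (Fermat.Agent.A2.IF.H9.mem_inertiaSubgroupIn_iff_forall P σ).2 hσ
    exact psi_equivariant h hζ hBσ hσI m i
  · rintro ⟨v₀, ξ⟩
    have hsum : (fun pr : ρbar.V × ρbar.V => psi L ζ B (pr.1 + pr.2) (v₀, ξ)) =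
        ∑ q : ρbar.V ⧸ L,
          (⟨addCoeff ζ B v₀ (s q) (s (Submodule.Quotient.mk v₀ - q)) ξ,
              addCoeff_mem hζ hBv _ _ _ _⟩ : P) •
            ((fun pr : ρbar.V × ρbar.V => psi L ζ B pr.1 (s q, ξ)) *
              (fun pr : ρbar.V × ρbar.V =>
                psi L ζ B pr.2 (s (Submodule.Quotient.mk v₀ - q), ξ))) := by
      funext pr
      rw [psi_add hζ hBv s hs v₀ ξ pr.1 pr.2, Finset.sum_apply]
      rfl
    rw [hsum]
    refine Subalgebra.sum_mem _ (fun q _ => Subalgebra.smul_mem _ (Subalgebra.mul_mem _ ?_ ?_) _)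
    · exact Algebra.subset_adjoin (Or.inl ⟨(s q, ξ), rfl⟩)
    · exact Algebra.subset_adjoin (Or.inr ⟨(s (Submodule.Quotient.mk v₀ - q), ξ), rfl⟩)

/-- **The Hopf model** of an ordinary peu ramifié representation. -/
theorem hopfModel_of_ordLineData (h : OrdLineData p ρbar P L) (hP : P.LiesOverPrime p)
    (hpeu : IsPeuAt p ρbar P) :
    Fermat.Agent.S19.HopfModel p ρbar.V (actR ρbar) := by
  haveI : Finite ρbar.V := finite_V566 ρbar
  obtain ⟨Ldat⟩ := exists_localCoordDatum h hP hpeu
  obtain ⟨C⟩ := Fermat.Agent.S19.H679.unrStatementH679 p ρbar.V (actR ρbar)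
    (isContAddAction_actR ρbar) Ldat
  obtain ⟨D⟩ := Fermat.Agent.S19.orderDatum_of_coordDatum (actR_add ρbar) C
  exact Fermat.Agent.A3.H619.ord p ρbar.V (actR ρbar) ⟨D⟩

end

/-- **(b) PEU ⟹ FLAT.** -/
theorem peuFlat : PeuFlatStatement := by
  intro p _ hp2 k _ _ ρbar hdet P hP L hL hpeu
  have hchar : ((p : ℕ) : k) = 0 := by
    have h := hdet.1
    have hbot : IsLocalRing.maximalIdeal k = ⊥ :=
      (Ideal.eq_bot_or_top _).resolve_right (Ideal.IsMaximal.ne_top inferInstance)
    rw [hbot, Ideal.mem_bot] at h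
    exact h
  have hdet2 : ∀ (n : ℕ) (σ : GQP) (a : ℕ), (∀ μ : QbP, μ ^ p ^ n = 1 → σ μ = μ ^ a) →
      LinearMap.det (ρbar.ρ σ) - (a : k) ∈ Ideal.span {((p ^ n : ℕ) : k)} := hdet.2
  have h : OrdLineData p ρbar P L :=
    { char := hchar
      det := fun σ a ha => by
        have h1 := hdet2 1 σ a (fun μ hμ => ha μ (by rwa [pow_one] at hμ))
        have h0 : (((p ^ 1 : ℕ) : ℕ) : k) = 0 := by rw [pow_one]; exact hchar
        rw [h0] at h1
        have h2 : Ideal.span {(0 : k)} = ⊥ := by rw [Ideal.span_singleton_eq_bot]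
        rw [h2, Ideal.mem_bot, sub_eq_zero] at h1
        exact h1
      basis := hL.basis
      stable := hL.stable
      inertia := hL.inertia }
  have hM := hopfModel_of_ordLineData h hP hpeu
  have hres : Finite (IsLocalRing.ResidueField k) :=
    Finite.of_surjective (IsLocalRing.residue k) IsLocalRing.residue_surjective
  refine Fermat.Agent.S19.H435.isFlatAt_of_subquotients Fermat.Agent.A3.H619.ord
    (GaloisRepAdic.ofResidualGaloisRep ρbar) hres (fun I hI => ?_)
  refine ⟨ρbar.V, inferInstance, actR ρbar, hM, ρbar.V, inferInstance, actR ρbar,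
    AddMonoidHom.id _, (Submodule.mkQ (I • (⊤ : Submodule k ρbar.V))).toAddMonoidHom,
    fun _ _ h => h, fun _ _ => rfl, Submodule.mkQ_surjective _, fun σ m' => ?_⟩
  rfl

end Fermat.Agent.S59.H566
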