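import Mathlib
import Fermat.Prelude.Def_FLTPrelim_Ramification

/-!
# Row S59, cell TW, leaf TW-STRICT (b) PEU-FLAT — part 1 (helper566): Kummer units for all of inertia

`P` a valuation subring of `ℚ̄`, `I = I_P` its inertia group, `ζ` a primitive `p`-th root of unity
(`p` prime), `cycExp ζ σ ∈ ℤ/p` the cyclotomic exponent (`σ ζ = ζ ^ cycExp ζ σ`).

`exists_unit_of_kummer`: let `c : G_ℚ → ℤ/p` be a cocycle on `I` for the cyclotomic action
(`c (σ τ) = c σ + cycExp σ * c τ`) and `B₁` a `P`-unit with `σ B₁ = ζ ^ c σ * B₁` for all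
`σ ∈ I` FIXING `ζ`.  Then there is a `P`-unit `B` with `σ B = ζ ^ c σ * B` for ALL `σ ∈ I`.

Proof: the twisted norm `N = ∏_{a ∈ Ω} ζ ^ (- c τ_a) * τ_a B₁` over representatives `τ_a ∈ I` of
the image `Ω ⊂ (ℤ/p)ˣ` of the cyclotomic character satisfies `τ N = ζ ^ (e * c τ) * N`,
`e = #Ω` prime to `p`; take `B = N ^ e'`, `e e' ≡ 1 mod p`.  (No Hilbert 90, no valuation theory.)
-/

set_option autoImplicit false
set_option linter.style.haveILetI false
set_option linter.unusedSectionVars false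
set_option linter.unusedVariables false

open scoped Pointwise

namespace Fermat.Agent.S59.H566

/-- `ℚ̄` -/
abbrev QbP : Type := AlgebraicClosure ℚ

/-- `Gal(ℚ̄/ℚ)` -/
abbrev GQP : Type := QbP ≃ₐ[ℚ] QbP

section ZPow

variable {p : ℕ} [Fact p.Prime] {ζ : QbP}

lemma neZero_p566 : NeZero p := ⟨(Fact.out : p.Prime).ne_zero⟩

lemma zpw_add (hζ : ζ ^ p = 1) (x y : ZMod p) :
    ζ ^ (x + y).val = ζ ^ x.val * ζ ^ y.val := by
  haveI : NeZero p := neZero_p566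
  rw [ZMod.val_add, ← pow_eq_pow_mod _ hζ, pow_add]

lemma zpw_mul (hζ : ζ ^ p = 1) (x y : ZMod p) :
    ζ ^ (x * y).val = (ζ ^ x.val) ^ y.val := by
  haveI : NeZero p := neZero_p566
  rw [ZMod.val_mul, ← pow_eq_pow_mod _ hζ, pow_mul]

lemma zpw_zero : ζ ^ (0 : ZMod p).val = 1 := by
  haveI : NeZero p := neZero_p566
  rw [ZMod.val_zero, pow_zero]

lemma zpw_natCast (hζ : ζ ^ p = 1) (n : ℕ) : ζ ^ ((n : ZMod p)).val = ζ ^ n := by
  haveI : NeZero p := neZero_p566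
  rw [ZMod.val_natCast, ← pow_eq_pow_mod _ hζ]

lemma zpw_neg_mul (hζ : ζ ^ p = 1) (x : ZMod p) : ζ ^ (-x).val * ζ ^ x.val = 1 := by
  rw [← zpw_add hζ, neg_add_cancel, zpw_zero]

lemma zpw_pow (hζ : ζ ^ p = 1) (x : ZMod p) (n : ℕ) :
    (ζ ^ x.val) ^ n = ζ ^ (x * (n : ZMod p)).val := by
  have h1 : (ζ ^ x.val) ^ p = 1 := by rw [← pow_mul, mul_comm, pow_mul, hζ, one_pow]
  rw [zpw_mul hζ, zpw_natCast h1]

lemma zpw_injective (hζ : IsPrimitiveRoot ζ p) {x y : ZMod p}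
    (h : ζ ^ x.val = ζ ^ y.val) : x = y := by
  haveI : NeZero p := neZero_p566
  exact ZMod.val_injective p (hζ.pow_inj (ZMod.val_lt x) (ZMod.val_lt y) h)

lemma zpw_ne_zero (hζ : ζ ^ p = 1) (n : ℕ) : ζ ^ n ≠ 0 := by
  have h0 : ζ ≠ 0 := by
    rintro rfl
    rw [zero_pow (Fact.out : p.Prime).ne_zero] at hζ
    exact zero_ne_one hζ
  exact pow_ne_zero _ h0

end ZPow

section Cyc

variable {p : ℕ} [Fact p.Prime] {ζ : QbP}

open Classical in
/-- The cyclotomic exponent of `σ` with respect to `ζ`. -/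
noncomputable def cycExp (p : ℕ) (ζ : QbP) (σ : GQP) : ZMod p :=
  if h : ∃ x : ZMod p, σ ζ = ζ ^ x.val then h.choose else 0

lemma cycExp_spec (hζ : IsPrimitiveRoot ζ p) (σ : GQP) : σ ζ = ζ ^ (cycExp p ζ σ).val := by
  haveI : NeZero p := neZero_p566
  have h : ∃ x : ZMod p, σ ζ = ζ ^ x.val := by
    have h1 : (σ ζ) ^ p = 1 := by rw [← map_pow, hζ.pow_eq_one, map_one]
    obtain ⟨i, hi, hi'⟩ := hζ.eq_pow_of_pow_eq_one h1
    refine ⟨(i : ZMod p), ?_⟩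
    rw [zpw_natCast hζ.pow_eq_one, hi']
  unfold cycExp
  rw [dif_pos h]
  exact h.choose_spec

lemma cycExp_eq (hζ : IsPrimitiveRoot ζ p) {σ : GQP} {x : ZMod p} (h : σ ζ = ζ ^ x.val) :
    cycExp p ζ σ = x :=
  zpw_injective hζ ((cycExp_spec hζ σ).symm.trans h)

lemma cycExp_one (hζ : IsPrimitiveRoot ζ p) : cycExp p ζ (1 : GQP) = 1 := by
  apply cycExp_eq hζ
  have h1 : (1 : ZMod p) = ((1 : ℕ) : ZMod p) := by simp
  rw [h1, zpw_natCast hζ.pow_eq_one, pow_one]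
  rfl

lemma cycExp_mul (hζ : IsPrimitiveRoot ζ p) (σ τ : GQP) :
    cycExp p ζ (σ * τ) = cycExp p ζ σ * cycExp p ζ τ := by
  apply cycExp_eq hζ
  rw [AlgEquiv.mul_apply, cycExp_spec hζ τ, map_pow, cycExp_spec hζ σ,
    zpw_mul hζ.pow_eq_one]

lemma cycExp_mul_inv (hζ : IsPrimitiveRoot ζ p) (σ : GQP) :
    cycExp p ζ σ * cycExp p ζ σ⁻¹ = 1 := by
  rw [← cycExp_mul hζ, mul_inv_cancel, cycExp_one hζ]

lemma cycExp_inv_mul (hζ : IsPrimitiveRoot ζ p) (σ : GQP) :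
    cycExp p ζ σ⁻¹ * cycExp p ζ σ = 1 := by
  rw [← cycExp_mul hζ, inv_mul_cancel, cycExp_one hζ]

lemma cycExp_ne_zero (hζ : IsPrimitiveRoot ζ p) (σ : GQP) : cycExp p ζ σ ≠ 0 := by
  intro h
  have := cycExp_mul_inv hζ σ
  rw [h, zero_mul] at this
  exact zero_ne_one this

lemma cycExp_eq_one_iff (hζ : IsPrimitiveRoot ζ p) (σ : GQP) :
    cycExp p ζ σ = 1 ↔ σ ζ = ζ := by
  have h1 : (1 : ZMod p) = ((1 : ℕ) : ZMod p) := by simp
  constructor
  · intro h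
    rw [cycExp_spec hζ σ, h, h1, zpw_natCast hζ.pow_eq_one, pow_one]
  · intro h
    apply cycExp_eq hζ
    rw [h, h1, zpw_natCast hζ.pow_eq_one, pow_one]

/-- the action of `σ` on powers of `ζ` -/
lemma apply_zpw (hζ : IsPrimitiveRoot ζ p) (σ : GQP) (x : ZMod p) :
    σ (ζ ^ x.val) = ζ ^ (cycExp p ζ σ * x).val := by
  rw [map_pow, cycExp_spec hζ σ, zpw_mul hζ.pow_eq_one]

/-- the cyclotomic exponent computes the action on all `p`-th roots of unity -/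
lemma apply_root_eq_pow (hζ : IsPrimitiveRoot ζ p) (σ : GQP) {μ : QbP} (hμ : μ ^ p = 1) :
    σ μ = μ ^ (cycExp p ζ σ).val := by
  haveI : NeZero p := neZero_p566
  obtain ⟨i, -, rfl⟩ := hζ.eq_pow_of_pow_eq_one hμ
  rw [map_pow, cycExp_spec hζ σ, ← pow_mul, ← pow_mul, mul_comm]

end Cyc

section Units

variable (P : ValuationSubring QbP)

lemma mem_decomp_of_mem_inertia566 {σ : GQP} (hσ : σ ∈ P.inertiaSubgroupIn ℚ) :
    σ ∈ P.decompositionSubgroup ℚ := by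
  obtain ⟨⟨σ', hσ'⟩, -, rfl⟩ := Subgroup.mem_map.1 hσ
  exact hσ'

lemma apply_mem_of_mem_decomp566 {σ : GQP} (hσ : σ ∈ P.decompositionSubgroup ℚ) {x : QbP}
    (hx : x ∈ P) : σ x ∈ P := by
  have h1 : σ • P = P := MulAction.mem_stabilizer_iff.1 hσ
  have h2 : σ x ∈ σ • P := by
    rw [ValuationSubring.mem_smul_pointwise_iff_exists]
    exact ⟨x, hx, rfl⟩
  rwa [h1] at h2

lemma mem_of_val_eq_one566 {x : QbP} (h : P.valuation x = 1) :
    x ∈ P ∧ x⁻¹ ∈ P ∧ x ≠ 0 := by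
  refine ⟨(P.valuation_le_one_iff x).1 h.le, (P.valuation_le_one_iff _).1 ?_, ?_⟩
  · rw [map_inv₀, h, inv_one]
  · rintro rfl
    rw [map_zero] at h
    exact zero_ne_one h

lemma val_eq_one_of_mem566 {x : QbP} (hx0 : x ≠ 0) (h1 : x ∈ P) (h2 : x⁻¹ ∈ P) :
    P.valuation x = 1 := by
  have h3 : P.valuation x ≤ 1 := (P.valuation_le_one_iff x).2 h1
  have h4 : P.valuation x⁻¹ ≤ 1 := (P.valuation_le_one_iff _).2 h2
  have h5 : P.valuation x * P.valuation x⁻¹ = 1 := by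
    rw [← map_mul, mul_inv_cancel₀ hx0, map_one]
  refine le_antisymm h3 ?_
  calc (1 : _) = P.valuation x * P.valuation x⁻¹ := h5.symm
    _ ≤ P.valuation x * 1 := mul_le_mul' le_rfl h4
    _ = P.valuation x := mul_one _

lemma val_apply_eq_one566 {σ : GQP} (hσ : σ ∈ P.decompositionSubgroup ℚ) {x : QbP}
    (hx : P.valuation x = 1) : P.valuation (σ x) = 1 := by
  obtain ⟨h1, h2, h3⟩ := mem_of_val_eq_one566 P hx
  refine val_eq_one_of_mem566 P ?_ (apply_mem_of_mem_decomp566 P hσ h1) ?_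
  · rwa [Ne, map_eq_zero_iff _ σ.injective]
  · rw [← map_inv₀]
    exact apply_mem_of_mem_decomp566 P hσ h2

lemma val_pow_root566 {p : ℕ} [Fact p.Prime] {ζ : QbP} (hζ : ζ ^ p = 1) (n : ℕ) :
    P.valuation (ζ ^ n) = 1 := by
  have h1 : (ζ ^ n) ^ p = 1 := by rw [← pow_mul, mul_comm, pow_mul, hζ, one_pow]
  have h2 : (P.valuation (ζ ^ n)) ^ p = 1 := by rw [← map_pow, h1, map_one]
  exact (pow_eq_one_iff.1 h2).resolve_right (Fact.out : p.Prime).ne_zero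

end Units

section Extend

variable {p : ℕ} [Fact p.Prime] {ζ : QbP} (P : ValuationSubring QbP)

/-- **Extension of Kummer units from `{σ ∈ I : σ ζ = ζ}` to `I`** (twisted norm). -/
theorem exists_unit_of_kummer (hζ : IsPrimitiveRoot ζ p) (c : GQP → ZMod p)
    (hc : ∀ σ ∈ P.inertiaSubgroupIn ℚ, ∀ τ ∈ P.inertiaSubgroupIn ℚ,
      c (σ * τ) = c σ + cycExp p ζ σ * c τ)
    (B₁ : QbP) (hB₁ : P.valuation B₁ = 1)
    (hK : ∀ σ ∈ P.inertiaSubgroupIn ℚ, σ ζ = ζ → σ B₁ = ζ ^ (c σ).val * B₁) :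
    ∃ B : QbP, P.valuation B = 1 ∧
      ∀ σ ∈ P.inertiaSubgroupIn ℚ, σ B = ζ ^ (c σ).val * B := by
  classical
  haveI : NeZero p := neZero_p566
  have hp : p.Prime := Fact.out
  have hζ1 : ζ ^ p = 1 := hζ.pow_eq_one
  set I := P.inertiaSubgroupIn ℚ with hI
  let Ω : Finset (ZMod p) := Finset.univ.filter (fun a => ∃ σ ∈ I, cycExp p ζ σ = a)
  have hΩ : ∀ a, a ∈ Ω ↔ ∃ σ ∈ I, cycExp p ζ σ = a := fun a => by
    simp only [Ω, Finset.mem_filter, Finset.mem_univ, true_and]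
  have hex : ∀ a, ∃ σ : GQP, a ∈ Ω → (σ ∈ I ∧ cycExp p ζ σ = a) := fun a => by
    by_cases ha : a ∈ Ω
    · obtain ⟨σ, h1, h2⟩ := (hΩ a).1 ha
      exact ⟨σ, fun _ => ⟨h1, h2⟩⟩
    · exact ⟨1, fun h => absurd h ha⟩
  choose rep hrep using hex
  let term : ZMod p → QbP := fun a => ζ ^ (-(c (rep a))).val * rep a B₁
  -- the image is stable under multiplication by `cycExp τ`
  have hstab : ∀ τ ∈ I, ∀ a ∈ Ω, cycExp p ζ τ * a ∈ Ω := by
    intro τ hτ a ha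
    obtain ⟨σ, h1, h2⟩ := (hΩ a).1 ha
    exact (hΩ _).2 ⟨τ * σ, I.mul_mem hτ h1, by rw [cycExp_mul hζ, h2]⟩
  -- the key transformation rule
  have key : ∀ τ ∈ I, ∀ a ∈ Ω, τ (term a) = ζ ^ (c τ).val * term (cycExp p ζ τ * a) := by
    intro τ hτ a ha
    set a' := cycExp p ζ τ * a with ha'
    have ha'Ω : a' ∈ Ω := hstab τ hτ a ha
    obtain ⟨hr, hra⟩ := hrep a ha
    obtain ⟨hr', hra'⟩ := hrep a' ha'Ω
    set h := (rep a')⁻¹ * τ * rep a with hh
    have hhI : h ∈ I := I.mul_mem (I.mul_mem (I.inv_mem hr') hτ) hr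
    have hmul : τ * rep a = rep a' * h := by rw [hh]; group
    have hhζ : h ζ = ζ := by
      have h0 := cycExp_inv_mul hζ (rep a')
      rw [hra'] at h0
      rw [← cycExp_eq_one_iff hζ, hh, cycExp_mul hζ, cycExp_mul hζ, hra, mul_assoc, ← ha', h0]
    have hhB := hK h hhI hhζ
    have hcoc : c τ + cycExp p ζ τ * c (rep a) = c (rep a') + a' * c h := by
      have e1 := hc τ hτ (rep a) hr
      have e2 := hc (rep a') hr' h hhI
      rw [hra'] at e2
      rw [← e1, ← e2, hmul]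
    have h1 : τ (rep a B₁) = ζ ^ (a' * c h).val * rep a' B₁ := by
      have : τ (rep a B₁) = (τ * rep a) B₁ := rfl
      rw [this, hmul, AlgEquiv.mul_apply, hhB, map_mul, apply_zpw hζ, hra']
    show τ (ζ ^ (-(c (rep a))).val * rep a B₁) = ζ ^ (c τ).val * (ζ ^ (-(c (rep a'))).val * rep a' B₁)
    rw [map_mul, apply_zpw hζ, h1, ← mul_assoc, ← mul_assoc, ← zpw_add hζ1, ← zpw_add hζ1]
    congr 2
    have : cycExp p ζ τ * -c (rep a) + a' * c h = c τ + -c (rep a') := by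
      have e3 : a' * c h = c τ + cycExp p ζ τ * c (rep a) - c (rep a') := by
        rw [hcoc]; ring
      rw [e3]; ring
    rw [this]
  set N := ∏ a ∈ Ω, term a with hN
  have hNτ : ∀ τ ∈ I, τ N = (ζ ^ (c τ).val) ^ Ω.card * N := by
    intro τ hτ
    rw [hN, map_prod]
    rw [Finset.prod_congr rfl (fun a ha => key τ hτ a ha), Finset.prod_mul_distrib,
      Finset.prod_const]
    congr 1
    refine Finset.prod_bij (fun a _ => cycExp p ζ τ * a) (fun a ha => hstab τ hτ a ha) ?_ ?_ ?_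
    · intro a _ b _ hab
      exact mul_left_cancel₀ (cycExp_ne_zero hζ τ) hab
    · intro b hb
      refine ⟨cycExp p ζ τ⁻¹ * b, hstab τ⁻¹ (I.inv_mem hτ) b hb, ?_⟩
      rw [← mul_assoc, cycExp_mul_inv hζ, one_mul]
    · intro a _
      rfl
  -- the cardinality of `Ω` is prime to `p`
  have h1Ω : (1 : ZMod p) ∈ Ω := (hΩ 1).2 ⟨1, I.one_mem, cycExp_one hζ⟩
  have hcard_pos : 0 < Ω.card := Finset.card_pos.2 ⟨1, h1Ω⟩
  have hcard_lt : Ω.card < p := by
    have hsub : Ω ⊆ Finset.univ.erase (0 : ZMod p) := by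
      intro a ha
      obtain ⟨σ, -, h2⟩ := (hΩ a).1 ha
      rw [Finset.mem_erase]
      exact ⟨by rw [← h2]; exact cycExp_ne_zero hζ σ, Finset.mem_univ _⟩
    have h1 := Finset.card_le_card hsub
    rw [Finset.card_erase_of_mem (Finset.mem_univ _), Finset.card_univ, ZMod.card] at h1
    have := hp.pos
    omega
  have he : ((Ω.card : ℕ) : ZMod p) ≠ 0 := by
    intro h
    rw [ZMod.natCast_eq_zero_iff] at h
    exact absurd (Nat.le_of_dvd hcard_pos h) (not_le.2 hcard_lt)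
  set e' := (((Ω.card : ℕ) : ZMod p)⁻¹).val with he'
  have hee' : ((Ω.card : ℕ) : ZMod p) * ((e' : ℕ) : ZMod p) = 1 := by
    rw [he', ZMod.natCast_zmod_val]
    haveI : Fact p.Prime := ⟨hp⟩
    exact mul_inv_cancel₀ he
  refine ⟨N ^ e', ?_, ?_⟩
  · have hterm : ∀ a ∈ Ω, P.valuation (term a) = 1 := by
      intro a ha
      obtain ⟨hr, -⟩ := hrep a ha
      show P.valuation (ζ ^ (-(c (rep a))).val * rep a B₁) = 1
      rw [map_mul, val_pow_root566 P hζ1,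
        val_apply_eq_one566 P (mem_decomp_of_mem_inertia566 P hr) hB₁, one_mul]
    have hNv : P.valuation N = 1 := by
      rw [hN, map_prod]
      exact Finset.prod_eq_one hterm
    rw [map_pow, hNv, one_pow]
  · intro τ hτ
    rw [map_pow, hNτ τ hτ, mul_pow]
    congr 1
    rw [zpw_pow hζ1, zpw_pow hζ1, mul_assoc, hee', mul_one]

end Extend

end Fermat.Agent.S59.H566
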